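/-
Row 37 (S43), block E0, sub-block (O), node (O5)/(O2) (helper248): THE SEMI-LOCAL PACKAGE IN POINTS
LANGUAGE.

`S` is a finite set of "points" (local subrings `R` of the field `F`, `S36.BP.IsPt A₀ R`).
`SemiLoc A₀ S` : Chinese remainder idempotents and common denominators for `S`.
* `SemiLoc.interp`  : interpolation of prescribed residues;
* `SemiLoc.move`    : **the moving lemma**: if `u` is locally at every `R ∈ S` a unit times an `n`-th
  power, then `u * h ^ n ≡ 1` modulo the radical of every `R ∈ S` for one global `h ≠ 0`;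
* `semiLoc_of_subring` : `SemiLoc` if all the points are localisations of one subring `B`.
-/
import Fermat.Agent.S36.BP.Rad

set_option autoImplicit false

noncomputable section

namespace Fermat.Agent.S43.E0.Chart

open Fermat.Agent.S36.BP

variable {K₀ F : Type*} [Field K₀] [Field F] [Algebra K₀ F]

/-- Chinese remainder idempotents and common denominators for the finite set of points `S`. -/
structure SemiLoc (A₀ : ValuationSubring K₀) (S : Finset (Subring F)) : Prop where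
  isPt : ∀ R ∈ S, IsPt A₀ R
  idem : ∀ R ∈ S, ∃ e : F, (∀ R' ∈ S, e ∈ R') ∧ e - 1 ∈ rad R ∧ ∀ R' ∈ S, R' ≠ R → e ∈ rad R'
  den : ∀ R ∈ S, ∀ r ∈ R, ∃ s : F, RUnit R s ∧ ∀ R' ∈ S, s ∈ R' ∧ s * r ∈ R'

variable {A₀ : ValuationSubring K₀} {S : Finset (Subring F)}

theorem sum_mem_rad' {R : Subring F} (hR : IsPt A₀ R) {ι : Type*} (s : Finset ι) (f : ι → F)
    (h : ∀ i ∈ s, f i ∈ rad R) : ∑ i ∈ s, f i ∈ rad R := by
  classical
  induction s using Finset.induction_on with
  | empty => simpa using zero_mem_rad R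
  | insert a s ha ih =>
    rw [Finset.sum_insert ha]
    exact hR.add_rad _ (h a (Finset.mem_insert_self a s)) _
      (ih fun i hi => h i (Finset.mem_insert_of_mem hi))

/-- **Twisted interpolation.** -/
theorem SemiLoc.interp' (H : SemiLoc A₀ S) (j g : Subring F → F)
    (hjg : ∀ R ∈ S, ∀ R' ∈ S, j R * g R' ∈ R') :
    ∃ y : F, ∀ R ∈ S, y * g R - j R * g R ∈ rad R := by
  classical
  have hid := H.idem
  choose! e he1 he2 he3 using hid
  refine ⟨∑ R ∈ S, e R * j R, fun R' hR' => ?_⟩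
  have hpt := H.isPt R' hR'
  have e1 : (∑ R ∈ S, e R * j R) * g R' - j R' * g R' =
      (e R' - 1) * (j R' * g R') + ∑ R ∈ S.erase R', e R * (j R * g R') := by
    rw [Finset.sum_mul, ← Finset.add_sum_erase S _ hR']
    have : ∀ R ∈ S.erase R', e R * j R * g R' = e R * (j R * g R') := fun R _ => by ring
    rw [Finset.sum_congr rfl this]
    ring
  rw [e1]
  refine hpt.add_rad _ ?_ _ (sum_mem_rad' hpt _ _ fun R hR => ?_)
  · rw [mul_comm]
    exact mul_mem_rad (hjg R' hR' R' hR') (he2 R' hR')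
  · rw [mul_comm]
    have hR1 := Finset.mem_erase.1 hR
    exact mul_mem_rad (hjg R hR1.2 R' hR') (he3 R hR1.2 R' hR' (Ne.symm hR1.1))

/-- **Interpolation.** -/
theorem SemiLoc.interp (H : SemiLoc A₀ S) (f : Subring F → F)
    (hf : ∀ R ∈ S, ∀ R' ∈ S, f R ∈ R') :
    ∃ y : F, ∀ R ∈ S, y ∈ R ∧ y - f R ∈ rad R := by
  obtain ⟨y, hy⟩ := H.interp' f (fun _ => 1) (fun R hR R' hR' => by simpa using hf R hR R' hR')
  refine ⟨y, fun R hR => ?_⟩
  have h1 : y - f R ∈ rad R := by simpa using hy R hR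
  exact ⟨Cr.mem h1 (hf R hR R hR), h1⟩

/-- **The moving lemma.** -/
theorem SemiLoc.move (H : SemiLoc A₀ S) {n : ℕ} (hn : n ≠ 0)
    (hroot : ∀ a : K₀, A₀.valuation a = 1 →
      ∃ b : K₀, A₀.valuation b = 1 ∧ A₀.valuation (b ^ n * a - 1) < 1)
    {u : F} (hu : u ≠ 0) (hloc : ∀ R ∈ S, ∃ g : F, g ≠ 0 ∧ RUnit R (u / g ^ n)) :
    ∃ h : F, h ≠ 0 ∧ ∀ R ∈ S, u * h ^ n - 1 ∈ rad R := by
  classical
  rcases S.eq_empty_or_nonempty with hemp | ⟨R₀, hR₀⟩
  · exact ⟨1, one_ne_zero, fun R hR => by simp [hemp] at hR⟩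
  choose! g hg0 hg using hloc
  have hden := fun R hR => H.den R hR _ (hg R hR).mem
  choose! s hs1 hs2 using hden
  -- step 1: a global `y` with `y * g R` a unit of `R`
  have hjg : ∀ R ∈ S, ∀ R' ∈ S, (s R / g R) * g R' ∈ R' := by
    intro R hR R' hR'
    refine (H.isPt R' hR').mem_of_pow_mem hn ?_
    obtain ⟨m, rfl⟩ := Nat.exists_eq_succ_of_ne_zero hn
    have e1 : ((s R / g R) * g R') ^ (m + 1) =
        s R ^ m * (s R * (u / g R ^ (m + 1))) * (u / g R' ^ (m + 1))⁻¹ := by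
      have h1 := hg0 R hR
      have h2 := hg0 R' hR'
      rw [mul_pow, div_pow]
      field_simp
      rw [pow_succ]
    rw [e1]
    exact Subring.mul_mem _ (Subring.mul_mem _ (Subring.pow_mem _ (hs2 R hR R' hR').1 _)
      (hs2 R hR R' hR').2) (hg R' hR').inv_mem
  obtain ⟨y, hy⟩ := H.interp' (fun R => s R / g R) g hjg
  have hyu : ∀ R ∈ S, RUnit R (y * g R) := by
    intro R hR
    refine (H.isPt R hR).runit_of_cr (hy R hR) ?_
    rw [div_mul_cancel₀ _ (hg0 R hR)]
    exact hs1 R hR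
  have huy : ∀ R ∈ S, RUnit R (u * y ^ n) := by
    intro R hR
    have e1 : u * y ^ n = (u / g R ^ n) * (y * g R) ^ n := by
      have h1 := hg0 R hR
      rw [mul_pow]
      field_simp
    rw [e1]
    exact (hg R hR).mul ((hyu R hR).pow n)
  -- step 2: the residues
  have hres := fun R hR => (H.isPt R hR).res _ (huy R hR).mem
  choose! a ha1 ha2 using hres
  have hau : ∀ R ∈ S, A₀.valuation (a R) = 1 := by
    intro R hR
    refine le_antisymm ((A₀.valuation_le_one_iff _).2 (ha1 R hR)) (not_lt.1 fun hlt => ?_)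
    have h1 : RUnit R (algebraMap K₀ F (a R)) :=
      (H.isPt R hR).runit_of_cr (Cr.symm (ha2 R hR)) (huy R hR)
    exact ((H.isPt R hR).const_rad _ hlt).2 h1
  have hb := fun R hR => hroot (a R) (hau R hR)
  choose! b hb1 hb2 using hb
  have hbm : ∀ R ∈ S, ∀ R' ∈ S, algebraMap K₀ F (b R) ∈ R' := fun R hR R' hR' =>
    (H.isPt R' hR').const_mem _ ((A₀.valuation_le_one_iff _).1 (hb1 R hR).le)
  obtain ⟨y₁, hy₁⟩ := H.interp (fun R => algebraMap K₀ F (b R)) hbm
  have key : ∀ R ∈ S, u * (y * y₁) ^ n - 1 ∈ rad R := by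
    intro R hR
    have hpt := H.isPt R hR
    have c1 : Cr R (y₁ ^ n) (algebraMap K₀ F (b R) ^ n) :=
      hpt.cr_pow (hy₁ R hR).2 (hbm R hR R hR) n
    have c2 : Cr R (u * y ^ n) (algebraMap K₀ F (a R)) := ha2 R hR
    have c3 : Cr R (y₁ ^ n * (u * y ^ n)) (algebraMap K₀ F (b R) ^ n * algebraMap K₀ F (a R)) :=
      hpt.cr_mul c1 c2 (Subring.pow_mem _ (hbm R hR R hR) _) (huy R hR).mem
    have c4 : Cr R (algebraMap K₀ F (b R) ^ n * algebraMap K₀ F (a R)) 1 := by
      have := hpt.const_rad _ (hb2 R hR)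
      rw [map_sub, map_mul, map_pow, map_one] at this
      exact this
    have c5 := hpt.cr_trans c3 c4
    have e1 : u * (y * y₁) ^ n = y₁ ^ n * (u * y ^ n) := by ring
    rw [e1]
    exact c5
  refine ⟨y * y₁, ?_, key⟩
  intro h0
  have h1 := key R₀ hR₀
  rw [h0, zero_pow hn, mul_zero, zero_sub] at h1
  exact h1.2 (RUnit.one _).neg

/-- `SemiLoc` for a finite set of localisations of one subring `B`. -/
theorem semiLoc_of_subring (B : Subring F) (hpt : ∀ R ∈ S, IsPt A₀ R)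
    (hconst : ∀ a ∈ A₀, algebraMap K₀ F a ∈ B) (hle : ∀ R ∈ S, B ≤ R)
    (hfrac : ∀ R ∈ S, ∀ r ∈ R, ∃ a ∈ B, ∃ s ∈ B, RUnit R s ∧ r * s = a) : SemiLoc A₀ S := by
  classical
  -- maximality
  have hmax : ∀ R ∈ S, ∀ b : F, RUnit R b → ∃ c ∈ B, c * b - 1 ∈ rad R := by
    intro R hR b hb
    obtain ⟨a, ha, har⟩ := (hpt R hR).res _ hb.inv_mem
    refine ⟨algebraMap K₀ F a, hconst a ha, ?_⟩
    have e1 : algebraMap K₀ F a * b - 1 = b * -(b⁻¹ - algebraMap K₀ F a) := by
      have := hb.ne_zero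
      field_simp
      ring
    rw [e1]
    exact mul_mem_rad hb.mem (neg_mem_rad har)
  -- separation
  have hincl : ∀ R ∈ S, ∀ R' ∈ S, (∀ t ∈ B, t ∈ rad R' → t ∈ rad R) → R ≤ R' := by
    intro R hR R' hR' h r hr
    obtain ⟨a, ha, s, hs, hsu, e⟩ := hfrac R hR r hr
    have hsu' : RUnit R' s := by
      rcases runit_or_mem_rad (hle R' hR' hs) with h1 | h1
      · exact h1
      · exact absurd hsu (h s hs h1).2
    have : r = a * s⁻¹ := by
      rw [← e, mul_assoc, mul_inv_cancel₀ hsu.ne_zero, mul_one]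
    rw [this]
    exact Subring.mul_mem _ (hle R' hR' ha) hsu'.inv_mem
  have hrev : ∀ R ∈ S, ∀ R' ∈ S, (∀ t ∈ B, t ∈ rad R' → t ∈ rad R) →
      ∀ t ∈ B, t ∈ rad R → t ∈ rad R' := by
    intro R hR R' hR' h t ht htR
    rcases runit_or_mem_rad (hle R' hR' ht) with h1 | h1
    · exfalso
      obtain ⟨c, hc, hcr⟩ := hmax R' hR' t h1
      have h2 : c * t - 1 ∈ rad R := h _ (B.sub_mem (B.mul_mem hc ht) B.one_mem) hcr
      have h3 : c * t ∈ rad R := mul_mem_rad (hle R hR hc) htR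
      have h4 : (1 : F) ∈ rad R := by
        have := (hpt R hR).add_rad _ h3 _ (neg_mem_rad h2)
        simpa using this
      exact h4.2 (RUnit.one _)
    · exact h1
  have hsep : ∀ R ∈ S, ∀ R' ∈ S, R' ≠ R → ∃ t ∈ B, t ∈ rad R' ∧ RUnit R t := by
    intro R hR R' hR' hne
    by_contra hcon
    push Not at hcon
    have h : ∀ t ∈ B, t ∈ rad R' → t ∈ rad R := fun t ht htR' =>
      (runit_or_mem_rad (hle R hR ht)).resolve_left (hcon t ht htR')
    exact hne (le_antisymm (hincl R' hR' R hR (hrev R hR R' hR' h)) (hincl R hR R' hR' h))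
  refine ⟨hpt, fun R hR => ?_, fun R hR r hr => ?_⟩
  · have hs := fun R' (hR' : R' ∈ S.erase R) =>
      hsep R hR R' (Finset.mem_erase.1 hR').2 (Finset.mem_erase.1 hR').1
    choose! t ht1 ht2 ht3 using hs
    have hprodB : ∏ R' ∈ S.erase R, t R' ∈ B := Subring.prod_mem _ ht1
    have hprodU : RUnit R (∏ R' ∈ S.erase R, t R') := by
      have : ∀ T : Finset (Subring F), (∀ R' ∈ T, RUnit R (t R')) → RUnit R (∏ R' ∈ T, t R') := by
        intro T
        induction T using Finset.induction_on with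
        | empty => intro _; simpa using RUnit.one R
        | insert a T ha ih =>
          intro h
          rw [Finset.prod_insert ha]
          exact (h a (Finset.mem_insert_self a T)).mul
            (ih fun i hi => h i (Finset.mem_insert_of_mem hi))
      exact this _ ht3
    obtain ⟨c, hc, hcr⟩ := hmax R hR _ hprodU
    refine ⟨c * ∏ R' ∈ S.erase R, t R', fun R' hR' => hle R' hR' (B.mul_mem hc hprodB), hcr,
      fun R' hR' hne => ?_⟩
    have hmem : R' ∈ S.erase R := Finset.mem_erase.2 ⟨hne, hR'⟩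
    rw [← Finset.mul_prod_erase _ _ hmem]
    have e1 : c * (t R' * ∏ x ∈ (S.erase R).erase R', t x) =
        (c * ∏ x ∈ (S.erase R).erase R', t x) * t R' := by ring
    rw [e1]
    refine mul_mem_rad (hle R' hR' (B.mul_mem hc (Subring.prod_mem _ fun x hx => ?_))) (ht2 R' hmem)
    exact ht1 x (Finset.mem_erase.1 hx).2
  · obtain ⟨a, ha, s, hs, hsu, e⟩ := hfrac R hR r hr
    exact ⟨s, hsu, fun R' hR' => ⟨hle R' hR' hs, by rw [mul_comm, e]; exact hle R' hR' ha⟩⟩

end Fermat.Agent.S43.E0.Chart
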