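/-
Row 37 (S43), block E0, sub-block (O), node (O5) (helper248): THE COMMON CHART.

A finite set `S` of closed points of the model glued from `chart A₀ z` and `chart A₀ z⁻¹` lies in the
single chart `chart A₀ (z - c)⁻¹`, `c ∈ A₀ˣ` with residue different from the values of `z` at the
points of `S`.  Consequences: `SemiLoc A₀ S` and the moving lemma for model points.
-/
import Fermat.Agent.BAD.LevelQ.Pt.Main
import Fermat.Agent.S43.E0.Chart.Semi

set_option autoImplicit false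
set_option linter.style.haveILetI false

noncomputable section

namespace Fermat.Agent.S43.E0.Chart

open Polynomial Fermat.Agent.S18 Fermat.Agent.S36.BP Fermat.Agent.BAD.LevelQ

variable {K₀ F : Type*} [Field K₀] [Field F] [Algebra K₀ F]
variable {A₀ : ValuationSubring K₀} {ϖ₀ : K₀} {z : F}

theorem polyRing_le_of_mem (T : Subring K₀) {x y : F} (hx : x ∈ polyRing T y) :
    polyRing T x ≤ polyRing T y := by
  intro w hw
  rw [mem_polyRing_iff] at hw
  obtain ⟨p, hp, rfl⟩ := hw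
  rw [aeval_eq_sum_range]
  refine Subring.sum_mem _ fun i _ => ?_
  rw [Algebra.smul_def]
  exact Subring.mul_mem _ (Overlap.algebraMap_mem_polyRing T y (hp i)) (Subring.pow_mem _ hx i)

theorem chart_le_of_polyRing_le (T : Subring K₀) {x y : F} (h : polyRing T x ≤ polyRing T y) :
    chart T x ≤ chart T y := by
  intro w hw
  rw [mem_chart_iff_isIntegral] at hw ⊢
  exact isIntegral_of_forall_exists_algebraMap (fun r => ⟨⟨r.1, h r.2⟩, rfl⟩) hw

/-- An affine change of coordinate with unit slope does not change the chart. -/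
theorem chart_affine {a b : K₀} (ha : A₀.valuation a = 1) (hb : b ∈ A₀) (t : F) :
    chart A₀.toSubring (algebraMap K₀ F a * t + algebraMap K₀ F b) = chart A₀.toSubring t := by
  have ha0 : a ≠ 0 := by
    rintro rfl
    rw [map_zero] at ha
    exact zero_ne_one ha
  have haA : a ∈ A₀ := (A₀.valuation_le_one_iff _).1 ha.le
  have haiA : a⁻¹ ∈ A₀ := (A₀.valuation_le_one_iff _).1 (by rw [map_inv₀, ha, inv_one])
  apply le_antisymm
  · refine chart_le_of_polyRing_le _ (polyRing_le_of_mem _ ?_)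
    exact Subring.add_mem _ (Subring.mul_mem _ (Overlap.algebraMap_mem_polyRing _ _ haA)
      (Overlap.self_mem_polyRing _ _)) (Overlap.algebraMap_mem_polyRing _ _ hb)
  · refine chart_le_of_polyRing_le _ (polyRing_le_of_mem _ ?_)
    have e : t = algebraMap K₀ F a⁻¹ * ((algebraMap K₀ F a * t + algebraMap K₀ F b) -
        algebraMap K₀ F b) := by
      have : algebraMap K₀ F a ≠ 0 := (_root_.map_ne_zero _).2 ha0
      rw [map_inv₀]
      field_simp
      ring
    have h2 : algebraMap K₀ F a⁻¹ * ((algebraMap K₀ F a * t + algebraMap K₀ F b) -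
        algebraMap K₀ F b) ∈
        polyRing A₀.toSubring (algebraMap K₀ F a * t + algebraMap K₀ F b) :=
      Subring.mul_mem _ (Overlap.algebraMap_mem_polyRing _ _ haiA)
        (Subring.sub_mem _ (Overlap.self_mem_polyRing _ _)
          (Overlap.algebraMap_mem_polyRing _ _ hb))
    rwa [← e] at h2

theorem chart_sub_const {b : K₀} (hb : b ∈ A₀) (t : F) :
    chart A₀.toSubring (t - algebraMap K₀ F b) = chart A₀.toSubring t := by
  have := chart_affine (F := F) (A₀ := A₀) (a := 1) (b := -b) (by simp) (A₀.neg_mem _ hb) t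
  rw [map_one, one_mul, map_neg, ← sub_eq_add_neg] at this
  exact this

/-- a finite point with `z - c` invertible is a point of the chart of `(z - c)⁻¹` -/
theorem isClosedPt_of_finite (h₀ : IsUnif A₀ ϖ₀) {R : Subring F} {c : K₀} (hc : c ∈ A₀)
    (hR : IsClosedPt (algebraMap K₀ F ϖ₀) (chart A₀.toSubring z) R)
    (hu : RUnit R (z - algebraMap K₀ F c)) :
    IsClosedPt (algebraMap K₀ F ϖ₀) (chart A₀.toSubring (z - algebraMap K₀ F c)⁻¹) R := by
  refine isClosedPt_of_inv h₀ (inv_ne_zero hu.ne_zero) ?_ hu.inv_mem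
  rw [inv_inv, chart_sub_const hc]
  exact hR

/-- a point at infinity is a point of the chart of `(z - c)⁻¹` -/
theorem isClosedPt_of_infinite (h₀ : IsUnif A₀ ϖ₀) (hz : z ≠ 0) {R : Subring F} (hpt : IsPt A₀ R)
    {c : K₀} (hc : A₀.valuation c = 1)
    (hR : IsClosedPt (algebraMap K₀ F ϖ₀) (chart A₀.toSubring z⁻¹) R) (hrad : z⁻¹ ∈ rad R) :
    IsClosedPt (algebraMap K₀ F ϖ₀) (chart A₀.toSubring (z - algebraMap K₀ F c)⁻¹) R := by
  have hc0 : c ≠ 0 := by
    rintro rfl
    rw [map_zero] at hc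
    exact zero_ne_one hc
  have hcF : algebraMap K₀ F c ≠ 0 := (_root_.map_ne_zero _).2 hc0
  have hci : A₀.valuation c⁻¹ = 1 := by rw [map_inv₀, hc, inv_one]
  have hciA : c⁻¹ ∈ A₀ := (A₀.valuation_le_one_iff _).1 hci.le
  -- `y₁ = z⁻¹ - c⁻¹` is a unit of `R`
  have hu : RUnit R (z⁻¹ - algebraMap K₀ F c⁻¹) := by
    refine hpt.runit_of_cr (b := -algebraMap K₀ F c⁻¹) ?_ (hpt.runit_const hci).neg
    change z⁻¹ - algebraMap K₀ F c⁻¹ - -algebraMap K₀ F c⁻¹ ∈ rad R
    simpa using hrad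
  have hzc : z - algebraMap K₀ F c ≠ 0 := by
    intro h0
    apply hu.ne_zero
    rw [sub_eq_zero] at h0
    rw [h0, map_inv₀, sub_self]
  have h1 : IsClosedPt (algebraMap K₀ F ϖ₀)
      (chart A₀.toSubring (z⁻¹ - algebraMap K₀ F c⁻¹)⁻¹) R := by
    refine isClosedPt_of_inv h₀ (inv_ne_zero hu.ne_zero) ?_ hu.inv_mem
    rw [inv_inv, chart_sub_const hciA]
    exact hR
  have e : (z⁻¹ - algebraMap K₀ F c⁻¹)⁻¹ =
      algebraMap K₀ F (-(c ^ 2)) * (z - algebraMap K₀ F c)⁻¹ + algebraMap K₀ F (-c) := by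
    have h2 : z⁻¹ - algebraMap K₀ F c⁻¹ =
        -(z - algebraMap K₀ F c) / (z * algebraMap K₀ F c) := by
      rw [map_inv₀]
      field_simp
      ring
    rw [h2, map_neg, map_neg, map_pow]
    field_simp
    ring
  rw [e, chart_affine (by rw [Valuation.map_neg, map_pow, hc, one_pow])
    (A₀.neg_mem _ ((A₀.valuation_le_one_iff _).1 hc.le))] at h1
  exact h1

/-- Avoiding finitely many residues. -/
theorem exists_unit_avoiding [Infinite (IsLocalRing.ResidueField A₀)] (T : Finset K₀) :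
    ∃ c : K₀, A₀.valuation c = 1 ∧ ∀ a ∈ T, a ∈ A₀ → A₀.valuation (a - c) = 1 := by
  classical
  let res : A₀ →+* IsLocalRing.ResidueField A₀ := IsLocalRing.residue A₀
  let f : K₀ → IsLocalRing.ResidueField A₀ := fun a => if h : a ∈ A₀ then res ⟨a, h⟩ else 0
  obtain ⟨cb, hcb⟩ := Infinite.exists_notMem_finset (insert 0 (T.image f))
  obtain ⟨c, rfl⟩ := IsLocalRing.residue_surjective (R := A₀) cb
  have hunit : ∀ x : A₀, res x ≠ 0 → A₀.valuation (x : K₀) = 1 := by
    intro x hx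
    refine le_antisymm ((A₀.valuation_le_one_iff _).2 x.2) (not_lt.1 fun hlt => hx ?_)
    rw [IsLocalRing.residue_eq_zero_iff]
    exact (ValuationSubring.valuation_lt_one_iff A₀ x).2 hlt
  refine ⟨c, hunit c fun h => hcb (by rw [Finset.mem_insert]; exact Or.inl h), fun a ha haA => ?_⟩
  have := hunit (⟨a, haA⟩ - c) (fun h => hcb (by
    rw [Finset.mem_insert]
    refine Or.inr (Finset.mem_image.2 ⟨a, ha, ?_⟩)
    simp only [f, dif_pos haA]
    rw [map_sub, sub_eq_zero] at h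
    exact h))
  simpa using this

/-- **The common chart.** -/
theorem exists_common_chart [Infinite (IsLocalRing.ResidueField A₀)] (h₀ : IsUnif A₀ ϖ₀)
    (hz : z ≠ 0) (S : Finset (Subring F)) (hS : ∀ R ∈ S, IsModelPt A₀ ϖ₀ z R)
    (hpt : ∀ R ∈ S, IsPt A₀ R) :
    ∃ c : K₀, A₀.valuation c = 1 ∧ ∀ R ∈ S,
      IsClosedPt (algebraMap K₀ F ϖ₀) (chart A₀.toSubring (z - algebraMap K₀ F c)⁻¹) R := by
  classical
  -- the values of `z`
  have hval : ∀ R ∈ S, ∃ a : K₀, z ∈ R → a ∈ A₀ ∧ z - algebraMap K₀ F a ∈ rad R := by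
    intro R hR
    by_cases hzR : z ∈ R
    · obtain ⟨a, ha, har⟩ := (hpt R hR).res z hzR
      exact ⟨a, fun _ => ⟨ha, har⟩⟩
    · exact ⟨0, fun h => absurd h hzR⟩
  choose! a ha using hval
  obtain ⟨c, hc, hca⟩ := exists_unit_avoiding (A₀ := A₀) (S.image a)
  refine ⟨c, hc, fun R hR => ?_⟩
  have hcA : c ∈ A₀ := (A₀.valuation_le_one_iff _).1 hc.le
  rcases (hS R hR).cases h₀ hz with h1 | ⟨h1, h2⟩
  · have hzR : z ∈ R := h1.le (self_mem_chart _)
    obtain ⟨haA, har⟩ := ha R hR hzR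
    refine isClosedPt_of_finite h₀ hcA h1 ?_
    refine (hpt R hR).runit_of_cr (b := algebraMap K₀ F (a R - c)) ?_
      ((hpt R hR).runit_const (hca _ (Finset.mem_image_of_mem a hR) haA))
    change z - algebraMap K₀ F c - algebraMap K₀ F (a R - c) ∈ rad R
    rw [map_sub]
    have e : z - algebraMap K₀ F c - (algebraMap K₀ F (a R) - algebraMap K₀ F c) =
        z - algebraMap K₀ F (a R) := by ring
    rw [e]
    exact har
  · exact isClosedPt_of_infinite h₀ hz (hpt R hR) hc h1 h2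

/-- `SemiLoc` for closed points of one chart. -/
theorem semiLoc_of_isClosedPt {ϖ : F} {B : Subring F} {S : Finset (Subring F)}
    (hconst : ∀ a ∈ A₀, algebraMap K₀ F a ∈ B) (hpt : ∀ R ∈ S, IsPt A₀ R)
    (hS : ∀ R ∈ S, IsClosedPt ϖ B R) : SemiLoc A₀ S := by
  refine semiLoc_of_subring B hpt hconst (fun R hR => (hS R hR).le) fun R hR r hr => ?_
  obtain ⟨𝔫, h, -, rfl⟩ := hS R hR
  haveI := h
  obtain ⟨a, s, hs, e⟩ := hr
  exact ⟨a, a.2, s, s.2, ⟨coe_ne_zero_of_notMem hs, le_locSub s.2, inv_mem_locSub hs⟩, e⟩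

/-- **`SemiLoc` for every finite set of closed points of the model.** -/
theorem semiLoc_of_isModelPt [Infinite (IsLocalRing.ResidueField A₀)] (h₀ : IsUnif A₀ ϖ₀)
    (hz : z ≠ 0) (S : Finset (Subring F)) (hS : ∀ R ∈ S, IsModelPt A₀ ϖ₀ z R)
    (hpt : ∀ R ∈ S, IsPt A₀ R) : SemiLoc A₀ S := by
  obtain ⟨c, -, hc⟩ := exists_common_chart h₀ hz S hS hpt
  exact semiLoc_of_isClosedPt (fun a ha => polyRing_le_chart _ _
    (Overlap.algebraMap_mem_polyRing A₀.toSubring _ ha)) hpt hc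

/-- **The moving lemma for closed points of the model.** -/
theorem exists_move [Infinite (IsLocalRing.ResidueField A₀)] (h₀ : IsUnif A₀ ϖ₀)
    (hz : z ≠ 0) (S : Finset (Subring F)) (hS : ∀ R ∈ S, IsModelPt A₀ ϖ₀ z R)
    (hpt : ∀ R ∈ S, IsPt A₀ R) {n : ℕ} (hn : n ≠ 0)
    (hroot : ∀ a : K₀, A₀.valuation a = 1 →
      ∃ b : K₀, A₀.valuation b = 1 ∧ A₀.valuation (b ^ n * a - 1) < 1)
    {u : F} (hu : u ≠ 0) (hloc : ∀ R ∈ S, ∃ g : F, g ≠ 0 ∧ RUnit R (u / g ^ n)) :
    ∃ h : F, h ≠ 0 ∧ ∀ R ∈ S, u * h ^ n - 1 ∈ rad R :=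
  (semiLoc_of_isModelPt h₀ hz S hS hpt).move hn hroot hu hloc

end Fermat.Agent.S43.E0.Chart
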