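/-
Row 37 (S43), block E0, sub-block (O), node CTR (C1) (helper248): EVERY PLACE HAS A CENTRE.

`K₀ → K` fields, `A₀`, `A` valuation rings with the same residue field (`hres`), `F₀ / K₀`, `F / K`
function fields, `bc : F₀ →+* F` the base change.  For a place `v` of `F / K` the composite
`compVS A bc v = {f | f regular at v, f(v) ∈ A}` is a valuation ring of `F₀`; its centre on the model glued from
`chart A₀ z` and `chart A₀ z⁻¹` is a closed point of the special fibre.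
-/
import Fermat.Agent.S27.Ev
import Fermat.Agent.BAD.LevelQ.Pt.Main

set_option autoImplicit false
set_option linter.style.haveILetI false

noncomputable section

namespace Fermat.Agent.S43.E0.Chart

open Polynomial AlgebraicCurve Fermat.Agent.S24.FF Fermat.Agent.S27 Fermat.Agent.S18
  Fermat.Agent.S36.BP Fermat.Agent.BAD.LevelQ

section General

variable {K₀ F₀ : Type*} [Field K₀] [Field F₀] [Algebra K₀ F₀]
variable {A₀ : ValuationSubring K₀} {ϖ₀ : K₀} {z : F₀}

/-- the centre of a valuation ring containing the subring `B`. -/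
def ctrIdeal (B : Subring F₀) (W : ValuationSubring F₀) (h : ∀ b ∈ B, b ∈ W) : Ideal B :=
  (IsLocalRing.maximalIdeal W).comap (Subring.inclusion (show B ≤ W.toSubring from h))

theorem mem_ctrIdeal {B : Subring F₀} {W : ValuationSubring F₀} (h : ∀ b ∈ B, b ∈ W)
    (b : B) : b ∈ ctrIdeal B W h ↔ W.valuation (b : F₀) < 1 := by
  rw [ctrIdeal, Ideal.mem_comap]
  exact W.valuation_lt_one_iff _

theorem ctrIdeal_isPrime {B : Subring F₀} {W : ValuationSubring F₀}
    (h : ∀ b ∈ B, b ∈ W) : (ctrIdeal B W h).IsPrime :=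
  Ideal.comap_isPrime _ _

/-- The centre on the chart of `z` of a valuation ring `VV ∋ z` dominating `A₀` at which `z` has a
residue in `A₀`. -/
theorem exists_center_of_res (h₀ : IsUnif A₀ ϖ₀) (VV : ValuationSubring F₀)
    (hA : ∀ a ∈ A₀, algebraMap K₀ F₀ a ∈ VV) (hϖV : VV.valuation (algebraMap K₀ F₀ ϖ₀) < 1)
    (hz : z ∈ VV) (hzr : ∃ a ∈ A₀, VV.valuation (z - algebraMap K₀ F₀ a) < 1) :
    ∃ R : Subring F₀, IsClosedPt (algebraMap K₀ F₀ ϖ₀) (chart A₀.toSubring z) R ∧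
      Dominates VV R := by
  have hBVV : ∀ b ∈ chart A₀.toSubring z, b ∈ VV := fun b hb =>
    (mem_chart_iff_forall_valuationSubring _ z b).mp hb VV hA hz
  set 𝔫 : Ideal (chart A₀.toSubring z) := ctrIdeal _ VV hBVV with h𝔫def
  haveI h𝔫p : 𝔫.IsPrime := ctrIdeal_isPrime hBVV
  have hm𝔫 : ∀ b : chart A₀.toSubring z, b ∈ 𝔫 ↔ VV.valuation (b : F₀) < 1 :=
    mem_ctrIdeal hBVV
  obtain ⟨a, ha, haz⟩ := hzr
  have hprim : IsPrimPoly A₀ (X - C a) := by
    refine ⟨fun i => ?_, 1, ?_⟩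
    · rw [coeff_sub, coeff_X, coeff_C]
      refine A₀.sub_mem ?_ ?_
      · split_ifs
        · exact A₀.one_mem
        · exact A₀.zero_mem
      · split_ifs
        · exact ha
        · exact A₀.zero_mem
    · rw [coeff_sub, coeff_X_one, coeff_C, if_neg one_ne_zero, sub_zero, map_one]
  have hϖ : ∀ ϖB : chart A₀.toSubring z, (ϖB : F₀) = algebraMap K₀ F₀ ϖ₀ → ϖB ∈ 𝔫 := by
    intro ϖB h
    rw [hm𝔫, h]
    exact hϖV
  have hmax : 𝔫.IsMaximal := isMaximal_of_isPrimPoly h₀ 𝔫 hϖ (X - C a) hprim (by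
    intro b hb
    rw [hm𝔫, hb, map_sub, aeval_X, aeval_C]
    exact haz)
  have hunit : ∀ s : chart A₀.toSubring z, s ∉ 𝔫 → VV.valuation (s : F₀) = 1 := fun s hs =>
    le_antisymm ((VV.valuation_le_one_iff _).mpr (hBVV _ s.2))
      (not_lt.mp fun hlt => hs ((hm𝔫 s).mpr hlt))
  refine ⟨locSub (chart A₀.toSubring z) 𝔫, ⟨𝔫, hmax, hϖ, rfl⟩, ?_, ?_⟩
  · rintro r ⟨a, s, hs, e⟩
    have h1 := congrArg VV.valuation e
    rw [map_mul, hunit s hs, mul_one] at h1
    rw [← VV.valuation_le_one_iff, h1]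
    exact (VV.valuation_le_one_iff _).mpr (hBVV _ a.2)
  · intro r hr
    obtain ⟨a, s, ha, hs, e⟩ := mem_rad_locSub_iff.mp hr
    have h1 := congrArg VV.valuation e
    rw [map_mul, hunit s hs, mul_one] at h1
    rw [h1]
    exact (hm𝔫 a).mp ha

/-- **Properness for valuation rings with residue field that of `A₀`.** -/
theorem exists_modelPt_of_res (h₀ : IsUnif A₀ ϖ₀) (VV : ValuationSubring F₀)
    (hA : ∀ a ∈ A₀, algebraMap K₀ F₀ a ∈ VV) (hϖV : VV.valuation (algebraMap K₀ F₀ ϖ₀) < 1)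
    (hr : ∀ f ∈ VV, ∃ a ∈ A₀, VV.valuation (f - algebraMap K₀ F₀ a) < 1) (z : F₀) :
    ∃ R : Subring F₀, IsModelPt A₀ ϖ₀ z R ∧ Dominates VV R := by
  rcases VV.mem_or_inv_mem z with hz | hz
  · obtain ⟨R, hR, hd⟩ := exists_center_of_res h₀ VV hA hϖV hz (hr z hz)
    exact ⟨R, Or.inl hR, hd⟩
  · obtain ⟨R, hR, hd⟩ := exists_center_of_res h₀ VV hA hϖV hz (hr _ hz)
    exact ⟨R, Or.inr hR, hd⟩

end General

section Place

variable {K F F₀ : Type*} [Field K] [Field F] [Algebra K F] [Field F₀]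
variable [IsAlgClosed K] [IsFF1 K F]

/-- The composite of the place `v` of `F` and the valuation ring `A` of `K`, restricted to `F₀`. -/
def compVS (A : ValuationSubring K) (bc : F₀ →+* F) (v : Place K F) : ValuationSubring F₀ where
  carrier := {f | ∃ c ∈ A, IsVal v (bc f) c}
  mul_mem' := by
    rintro f g ⟨c, hc, hf⟩ ⟨d, hd, hg⟩
    exact ⟨c * d, A.mul_mem _ _ hc hd, by rw [map_mul]; exact hf.mul hg⟩
  one_mem' := ⟨1, A.one_mem, by
    have := isVal_algebraMap (F := F) v (1 : K)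
    rwa [map_one, ← map_one bc] at this⟩
  add_mem' := by
    rintro f g ⟨c, hc, hf⟩ ⟨d, hd, hg⟩
    exact ⟨c + d, A.add_mem _ _ hc hd, by rw [map_add]; exact hf.add hg⟩
  zero_mem' := ⟨0, A.zero_mem, by
    have := isVal_algebraMap (F := F) v (0 : K)
    rwa [map_zero, ← map_zero bc] at this⟩
  neg_mem' := by
    rintro f ⟨c, hc, hf⟩
    exact ⟨-c, A.neg_mem _ hc, by rw [map_neg]; exact hf.neg⟩
  mem_or_inv_mem' := by
    intro f
    rcases eq_or_ne f 0 with rfl | hf0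
    · left
      exact ⟨0, A.zero_mem, by
        have := isVal_algebraMap (F := F) v (0 : K)
        rwa [map_zero, ← map_zero bc] at this⟩
    have hg0 : bc f ≠ 0 := (_root_.map_ne_zero bc).2 hf0
    rcases lt_trichotomy (v.ord (bc f)) 0 with h | h | h
    · right
      refine ⟨0, A.zero_mem, isVal_zero_iff.2 (Or.inr ?_)⟩
      rw [map_inv₀, v.ord_inv]
      omega
    · have hv : IsVal v (bc f) (ev v (bc f)) := isVal_ev h.ge
      have hne : ev v (bc f) ≠ 0 := ev_ne_zero_of_ord_eq_zero hg0 h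
      rcases A.mem_or_inv_mem (ev v (bc f)) with h1 | h1
      · exact Or.inl ⟨_, h1, hv⟩
      · exact Or.inr ⟨_, h1, by rw [map_inv₀]; exact hv.inv hne⟩
    · left
      exact ⟨0, A.zero_mem, isVal_zero_iff.2 (Or.inr h)⟩

theorem mem_compVS {A : ValuationSubring K} {bc : F₀ →+* F} {v : Place K F} {f : F₀} :
    f ∈ compVS A bc v ↔ ∃ c ∈ A, IsVal v (bc f) c := Iff.rfl

theorem mem_compVS_iff {A : ValuationSubring K} {bc : F₀ →+* F} {v : Place K F} {f : F₀} :
    f ∈ compVS A bc v ↔ 0 ≤ v.ord (bc f) ∧ ev v (bc f) ∈ A := by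
  constructor
  · rintro ⟨c, hc, h⟩
    exact ⟨h.ord_nonneg, by rw [ev_eq_of_isVal h]; exact hc⟩
  · rintro ⟨h1, h2⟩
    exact ⟨_, h2, isVal_ev h1⟩

theorem compVS_val_lt_one {A : ValuationSubring K} {bc : F₀ →+* F} {v : Place K F} {f : F₀}
    (h : (compVS A bc v).valuation f < 1) : A.valuation (ev v (bc f)) < 1 := by
  have hmem : f ∈ compVS A bc v := ((compVS A bc v).valuation_le_one_iff _).1 h.le
  obtain ⟨c, hc, hv⟩ := hmem
  rw [ev_eq_of_isVal hv]
  refine lt_of_le_of_ne ((A.valuation_le_one_iff _).2 hc) fun h1 => ?_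
  have hc0 : c ≠ 0 := by
    rintro rfl
    rw [map_zero] at h1
    exact zero_ne_one h1
  have hci : c⁻¹ ∈ A := (A.valuation_le_one_iff _).1 (by rw [map_inv₀, h1, inv_one])
  have hinv : f⁻¹ ∈ compVS A bc v := ⟨c⁻¹, hci, by rw [map_inv₀]; exact hv.inv hc0⟩
  have h2 := ((compVS A bc v).valuation_le_one_iff _).2 hinv
  have hf0 : f ≠ 0 := by
    rintro rfl
    rw [map_zero] at hv
    have := hv.unique (by
      have := isVal_algebraMap (F := F) v (0 : K)
      rwa [map_zero] at this)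
    exact hc0 this
  have h3 : (compVS A bc v).valuation (f * f⁻¹) < 1 := by
    rw [map_mul]
    exact mul_lt_one_of_lt_of_le h h2
  rw [mul_inv_cancel₀ hf0, map_one] at h3
  exact lt_irrefl _ h3

theorem compVS_val_lt_one_of {A : ValuationSubring K} {bc : F₀ →+* F} {v : Place K F} {f : F₀}
    {c : K} (hv : IsVal v (bc f) c) (hc : A.valuation c < 1) :
    (compVS A bc v).valuation f < 1 := by
  have hmem : f ∈ compVS A bc v := ⟨c, (A.valuation_le_one_iff _).1 hc.le, hv⟩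
  refine lt_of_le_of_ne (((compVS A bc v).valuation_le_one_iff _).2 hmem) fun h1 => ?_
  have hinv : f⁻¹ ∈ compVS A bc v :=
    ((compVS A bc v).valuation_le_one_iff _).1 (by rw [map_inv₀, h1, inv_one])
  have hf0 : f ≠ 0 := by
    rintro rfl
    rw [map_zero] at h1
    exact zero_ne_one h1
  obtain ⟨d, hd, hvd⟩ := hinv
  have h2 : IsVal v (bc (f * f⁻¹)) (c * d) := by rw [map_mul]; exact hv.mul hvd
  rw [mul_inv_cancel₀ hf0, map_one] at h2
  have h3 : c * d = 1 := h2.unique (by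
    have := isVal_algebraMap (F := F) v (1 : K)
    rwa [map_one] at this)
  have h4 : A.valuation (c * d) < 1 := by
    rw [map_mul]
    exact mul_lt_one_of_lt_of_le hc ((A.valuation_le_one_iff _).2 hd)
  rw [h3, map_one] at h4
  exact lt_irrefl _ h4

variable {K₀ : Type*} [Field K₀] [Algebra K₀ F₀] [Algebra K₀ K]

/-- **(CTR) Every place of `F` has a centre among the closed points of the model.** -/
theorem exists_centre {A₀ : ValuationSubring K₀} {ϖ₀ : K₀} (h₀ : IsUnif A₀ ϖ₀)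
    (A : ValuationSubring K) (hA₀ : ∀ a ∈ A₀, algebraMap K₀ K a ∈ A)
    (hϖ : A.valuation (algebraMap K₀ K ϖ₀) < 1)
    (hres : ∀ c ∈ A, ∃ a ∈ A₀, A.valuation (c - algebraMap K₀ K a) < 1)
    (bc : F₀ →+* F) (hbc : ∀ a : K₀, bc (algebraMap K₀ F₀ a) = algebraMap K F (algebraMap K₀ K a))
    (z : F₀) (v : Place K F) :
    ∃ R : Subring F₀, IsModelPt A₀ ϖ₀ z R ∧
      ((∀ r ∈ R, 0 ≤ v.ord (bc r) ∧ ev v (bc r) ∈ A) ∧
        ∀ r ∈ rad R, A.valuation (ev v (bc r)) < 1) := by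
  have hconst : ∀ a : K₀, IsVal v (bc (algebraMap K₀ F₀ a)) (algebraMap K₀ K a) := fun a => by
    rw [hbc]
    exact isVal_algebraMap v _
  obtain ⟨R, hR, hd⟩ := exists_modelPt_of_res h₀ (compVS A bc v)
    (fun a ha => ⟨_, hA₀ a ha, hconst a⟩) (compVS_val_lt_one_of (hconst ϖ₀) hϖ)
    (fun f hf => by
      obtain ⟨c, hc, hv⟩ := hf
      obtain ⟨a, ha, hca⟩ := hres c hc
      refine ⟨a, ha, compVS_val_lt_one_of (c := c - algebraMap K₀ K a) ?_ hca⟩
      rw [map_sub]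
      exact hv.sub (hconst a)) z
  exact ⟨R, hR, fun r hr => mem_compVS_iff.1 (hd.1 r hr), fun r hr => compVS_val_lt_one (hd.2 r hr)⟩

omit [Algebra K₀ K] in
/-- a centre is dominated by the composite valuation ring -/
theorem dominates_of_centre {A : ValuationSubring K} {bc : F₀ →+* F} {v : Place K F}
    {R : Subring F₀}
    (h : (∀ r ∈ R, 0 ≤ v.ord (bc r) ∧ ev v (bc r) ∈ A) ∧
      ∀ r ∈ rad R, A.valuation (ev v (bc r)) < 1) : Dominates (compVS A bc v) R :=
  ⟨fun r hr => mem_compVS_iff.2 (h.1 r hr), fun r hr =>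
    compVS_val_lt_one_of (isVal_ev (h.1 r hr.1).1) (h.2 r hr)⟩

omit [Algebra K₀ K] in
/-- **(C2) The centre is unique.** -/
theorem centre_unique {A₀ : ValuationSubring K₀} {ϖ₀ : K₀} (h₀ : IsUnif A₀ ϖ₀)
    {A : ValuationSubring K} {bc : F₀ →+* F} {z : F₀} (hz : z ≠ 0) {v : Place K F}
    {R R' : Subring F₀} (hR : IsModelPt A₀ ϖ₀ z R) (hR' : IsModelPt A₀ ϖ₀ z R')
    (h : (∀ r ∈ R, 0 ≤ v.ord (bc r) ∧ ev v (bc r) ∈ A) ∧
      ∀ r ∈ rad R, A.valuation (ev v (bc r)) < 1)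
    (h' : (∀ r ∈ R', 0 ≤ v.ord (bc r) ∧ ev v (bc r) ∈ A) ∧
      ∀ r ∈ rad R', A.valuation (ev v (bc r)) < 1) : R = R' :=
  hR.eq_of_dominates h₀ hz hR' (dominates_of_centre h) (dominates_of_centre h')

end Place

end Fermat.Agent.S43.E0.Chart
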