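/-
Row 37 (S43), block E0, node MOVE (helper248): EXPORTS of the moving lemma for the closed points of
the model of an `MChart` (residue field of `A₀` algebraically closed), in the three shapes used by the
consumers (`E0/O/Top.lean` : `hSL`; `E0/Iso/Top.lean` : `move`; `E0/O/Root.lean` : `RUnit R (g ^ n * u)`).
-/
import Fermat.Agent.S43.E0.Chart.Common

set_option autoImplicit false

noncomputable section

namespace Fermat.Agent.S43.E0.Chart

open Fermat.Agent.S18 Fermat.Agent.S36.BP Fermat.Agent.BAD.LevelQ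

variable {K₀ F : Type*} [Field K₀] [Field F] [Algebra K₀ F]
variable {A₀ : ValuationSubring K₀} {ϖ₀ : K₀} {z : F}

/-- `n`-th roots of residues. -/
theorem exists_root_of_isAlgClosed (hac : IsAlgClosed (IsLocalRing.ResidueField A₀)) {n : ℕ}
    (hn : n ≠ 0) (a : K₀) (ha : A₀.valuation a = 1) :
    ∃ b : K₀, A₀.valuation b = 1 ∧ A₀.valuation (b ^ n * a - 1) < 1 := by
  haveI := hac
  let res : A₀ →+* IsLocalRing.ResidueField A₀ := IsLocalRing.residue A₀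
  have haA : a ∈ A₀ := (A₀.valuation_le_one_iff _).1 ha.le
  have hlt : ∀ x : A₀, res x = 0 ↔ A₀.valuation (x : K₀) < 1 := by
    intro x
    rw [IsLocalRing.residue_eq_zero_iff]
    exact ValuationSubring.valuation_lt_one_iff A₀ x
  have ha0 : res ⟨a, haA⟩ ≠ 0 := by
    intro h
    have := (hlt _).1 h
    rw [ha] at this
    exact lt_irrefl _ this
  obtain ⟨bb, hbb⟩ := IsAlgClosed.exists_pow_nat_eq (res ⟨a, haA⟩)⁻¹ (Nat.pos_of_ne_zero hn)
  obtain ⟨b, rfl⟩ := IsLocalRing.residue_surjective (R := A₀) bb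
  have hb0 : res b ≠ 0 := by
    intro h
    have h1 : (res b) ^ n = (res ⟨a, haA⟩)⁻¹ := hbb
    rw [h, zero_pow hn] at h1
    exact inv_ne_zero ha0 h1.symm
  refine ⟨b, le_antisymm ((A₀.valuation_le_one_iff _).2 b.2)
    (not_lt.1 fun h => hb0 ((hlt b).2 h)), ?_⟩
  have h2 : res (b ^ n * ⟨a, haA⟩ - 1) = 0 := by
    have h1 : (res b) ^ n = (res ⟨a, haA⟩)⁻¹ := hbb
    rw [map_sub, map_mul, map_pow, map_one, h1, inv_mul_cancel₀ ha0, sub_self]
  have := (hlt _).1 h2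
  simpa using this

variable {ι : Type*} {V : ι → ValuationSubring F}

/-- **MOVE**, `Finset` form. -/
theorem move_finset [CharZero K₀] [Nonempty ι] (H : MChart A₀ ϖ₀ V z)
    (hac : IsAlgClosed (IsLocalRing.ResidueField A₀)) {n : ℕ} (hn : n ≠ 0)
    (S : Finset (Subring F)) (hS : ∀ R ∈ S, IsModelPt A₀ ϖ₀ z R) {u : F}
    (hloc : ∀ R ∈ S, ∃ g : F, g ≠ 0 ∧ RUnit R (u / g ^ n)) :
    ∃ h : F, h ≠ 0 ∧ ∀ R ∈ S, u * h ^ n - 1 ∈ rad R := by
  haveI := hac
  haveI : Infinite (IsLocalRing.ResidueField A₀) := IsAlgClosed.instInfinite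
  rcases S.eq_empty_or_nonempty with hemp | ⟨R₀, hR₀⟩
  · exact ⟨1, one_ne_zero, fun R hR => by simp [hemp] at hR⟩
  have hu : u ≠ 0 := by
    rintro rfl
    obtain ⟨g, -, hg⟩ := hloc R₀ hR₀
    exact hg.ne_zero (zero_div _)
  exact exists_move H.vert.unif₀ H.ne_zero S hS (fun R hR => (hS R hR).isPt H hac) hn
    (exists_root_of_isAlgClosed hac hn) hu hloc

/-- **MOVE**, the shape `move` of `E0/Iso/Top.lean`. -/
theorem move_runit [CharZero K₀] [Nonempty ι] (H : MChart A₀ ϖ₀ V z)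
    (hac : IsAlgClosed (IsLocalRing.ResidueField A₀)) {n : ℕ} (hn : n ≠ 0)
    (S : Finset (Subring F)) (v : F) (hS : ∀ R ∈ S, R ∈ {R | IsModelPt A₀ ϖ₀ z R})
    (hloc : ∀ R ∈ S, ∃ g : F, g ≠ 0 ∧ RUnit R (v / g ^ n)) :
    ∃ h : F, h ≠ 0 ∧ ∀ R ∈ S, RUnit R (v * h ^ n) := by
  obtain ⟨h, h0, hh⟩ := move_finset H hac hn S hS hloc
  exact ⟨h, h0, fun R hR => ((hS R hR).isPt H hac).runit_of_cr (hh R hR) (RUnit.one R)⟩

/-- **MOVE**, the shape `hSL` of `E0/O/Top.lean`, from local roots `RUnit R (g ^ n * u)`. -/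
theorem move_set [CharZero K₀] [Nonempty ι] (H : MChart A₀ ϖ₀ V z)
    (hac : IsAlgClosed (IsLocalRing.ResidueField A₀)) {n : ℕ} (hn : n ≠ 0) {u : F}
    (hloc : ∀ R, IsModelPt A₀ ϖ₀ z R → ∃ g : F, RUnit R (g ^ n * u))
    (Z : Set (Subring F)) (hZ : Z ⊆ {R | IsModelPt A₀ ϖ₀ z R}) (hfin : Z.Finite) :
    ∃ f : F, f ≠ 0 ∧ ∀ R ∈ Z, f ^ n * u - 1 ∈ rad R := by
  classical
  obtain ⟨h, h0, hh⟩ := move_finset H hac hn hfin.toFinset
    (fun R hR => hZ (hfin.mem_toFinset.1 hR)) (u := u) (fun R hR => by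
      obtain ⟨g, hg⟩ := hloc R (hZ (hfin.mem_toFinset.1 hR))
      have hg0 : g ≠ 0 := by
        rintro rfl
        rw [zero_pow hn, zero_mul] at hg
        exact hg.ne_zero rfl
      refine ⟨g⁻¹, inv_ne_zero hg0, ?_⟩
      have e : u / g⁻¹ ^ n = g ^ n * u := by
        rw [inv_pow, div_inv_eq_mul, mul_comm]
      rw [e]
      exact hg)
  exact ⟨h, h0, fun R hR => by rw [mul_comm]; exact hh R (hfin.mem_toFinset.2 hR)⟩

end Fermat.Agent.S43.E0.Chart
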